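import Fermat.Agent.QuadraticRH.FE
import Fermat.Agent.HyperellipticWeil.Main

/-!
# The reciprocal roots of a quadratic L-function

Their absolute values are at most `√q` and their product is `q ^ g`, so all are equal to `√q`.
-/

set_option autoImplicit false
set_option linter.style.openClassical false
set_option linter.style.haveILetI false
set_option linter.unusedSectionVars false

noncomputable section

open scoped Classical

namespace FA.QuadraticRH

open Polynomial QuadraticLFF KurlbergRudnick HyperellipticWeil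

variable {k : Type*} [Field k] [Fintype k] {D : k[X]} {g : ℕ}

theorem monics_eq_monicSet (n : ℕ) : monics k n = monicSet k n :=
  Finset.ext fun _ => mem_monics.trans mem_monicSet.symm

theorem lSum_eq_coeffL (D : k[X]) (n : ℕ) : lSum D n = coeffL D n := by
  rw [lSum, coeffL, monics_eq_monicSet]
  rfl

theorem prod_norm_le {s : Multiset ℂ} {B : ℝ} (h : ∀ a ∈ s, ‖a‖ ≤ B) :
    ‖s.prod‖ ≤ B ^ Multiset.card s := by
  induction s using Multiset.induction_on with
  | empty => simp
  | cons a s ih =>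
    rw [Multiset.prod_cons, norm_mul, Multiset.card_cons, pow_succ']
    exact mul_le_mul (h a (Multiset.mem_cons_self a s))
      (ih fun b hb => h b (Multiset.mem_cons_of_mem hb)) (norm_nonneg _)
      ((norm_nonneg a).trans (h a (Multiset.mem_cons_self a s)))

theorem le_prod_norm {s : Multiset ℂ} {B : ℝ} (hB : 0 ≤ B) (h : ∀ a ∈ s, B ≤ ‖a‖) :
    B ^ Multiset.card s ≤ ‖s.prod‖ := by
  induction s using Multiset.induction_on with
  | empty => simp
  | cons a s ih =>
    rw [Multiset.prod_cons, norm_mul, Multiset.card_cons, pow_succ']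
    exact mul_le_mul (h a (Multiset.mem_cons_self a s))
      (ih fun b hb => h b (Multiset.mem_cons_of_mem hb)) (pow_nonneg hB _) (norm_nonneg _)

variable (hk : ringChar k ≠ 2) (hD : D.Monic) (hsq : Squarefree D)
  (hdeg : D.natDegree = 2 * g + 1)
include hk hD hsq hdeg

theorem coeff_lPoly_coeffL (i : ℕ) : (lPoly D).coeff i = coeffL D i := by
  rw [coeff_lPoly_eq hk hD hsq (by omega), lSum_eq_coeffL]

theorem natDegree_lPoly : (lPoly D).natDegree = 2 * g := by
  refine natDegree_eq_of_le_of_coeff_ne_zero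
    (natDegree_sum_le_of_forall_le _ _ fun i hi => (natDegree_C_mul_X_pow_le _ _).trans ?_) ?_
  · rw [Finset.mem_range, hdeg] at hi
    omega
  · rw [coeff_lPoly_coeffL hk hD hsq hdeg, coeffL_top hk hD hsq hdeg]
    exact pow_ne_zero _ (by exact_mod_cast Fintype.card_ne_zero)

theorem coeff_zero_lPoly : (lPoly D).coeff 0 = 1 := by
  rw [coeff_lPoly_coeffL hk hD hsq hdeg, coeffL_zero]

theorem natDegree_reverse_lPoly : (lPoly D).reverse.natDegree = 2 * g := by
  rw [reverse_natDegree, natTrailingDegree_eq_zero.mpr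
    (Or.inr (by rw [coeff_zero_lPoly hk hD hsq hdeg]; exact one_ne_zero)), Nat.sub_zero,
    natDegree_lPoly hk hD hsq hdeg]

theorem monic_reverse_lPoly : (lPoly D).reverse.Monic := by
  rw [Monic, reverse_leadingCoeff, trailingCoeff, natTrailingDegree_eq_zero.mpr
    (Or.inr (by rw [coeff_zero_lPoly hk hD hsq hdeg]; exact one_ne_zero)),
    coeff_zero_lPoly hk hD hsq hdeg]

theorem card_lRoots : Multiset.card (lRoots D) = 2 * g := by
  rw [lRoots, IsAlgClosed.card_roots_eq_natDegree,
    (monic_reverse_lPoly hk hD hsq hdeg).natDegree_map,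
    natDegree_reverse_lPoly hk hD hsq hdeg]

theorem prod_lRoots : (lRoots D).prod = (Fintype.card k : ℂ) ^ g := by
  have h := (IsAlgClosed.splits ((lPoly D).reverse.map (Int.castRingHom ℂ))
    ).coeff_zero_eq_prod_roots_of_monic ((monic_reverse_lPoly hk hD hsq hdeg).map _)
  rw [coeff_map, coeff_zero_reverse, leadingCoeff, natDegree_lPoly hk hD hsq hdeg,
    coeff_lPoly_coeffL hk hD hsq hdeg, coeffL_top hk hD hsq hdeg,
    (monic_reverse_lPoly hk hD hsq hdeg).natDegree_map, natDegree_reverse_lPoly hk hD hsq hdeg,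
    pow_mul, neg_one_sq, one_pow, one_mul] at h
  rw [lRoots, ← h]
  simp

/-- **The Riemann hypothesis**, exactly. -/
theorem norm_lRoots_eq {a : ℂ} (ha : a ∈ lRoots D) : ‖a‖ = Real.sqrt (Fintype.card k) := by
  refine le_antisymm (norm_lRoots_le hk hD hsq (by omega) ha) ?_
  obtain ⟨t, ht⟩ := Multiset.exists_cons_of_mem ha
  have hB : 0 < Real.sqrt (Fintype.card k) :=
    Real.sqrt_pos.mpr (Nat.cast_pos.mpr Fintype.card_pos)
  have hle := prod_norm_le (s := t) fun b hb =>
    norm_lRoots_le hk hD hsq (by omega) (ht ▸ Multiset.mem_cons_of_mem hb)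
  have hc := card_lRoots hk hD hsq hdeg
  have hp := congrArg (‖·‖) (prod_lRoots hk hD hsq hdeg)
  rw [ht, Multiset.card_cons] at hc
  simp only [ht, Multiset.prod_cons, norm_mul, norm_pow, Complex.norm_natCast] at hp
  rw [← Real.sq_sqrt (Nat.cast_nonneg (Fintype.card k)), ← pow_mul, ← hc, pow_succ'] at hp
  by_contra hlt
  exact absurd hp ((mul_le_mul_of_nonneg_left hle (norm_nonneg a)).trans_lt
    (mul_lt_mul_of_pos_right (not_le.mp hlt) (pow_pos hB _))).ne

/-- **The L-function is the product over its reciprocal roots.** -/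
theorem sum_coeffL_mul_pow (z : ℂ) :
    ∑ n ∈ Finset.range (2 * g + 1), (coeffL D n : ℂ) * z ^ n =
      ((lRoots D).map fun a => 1 - a * z).prod := by
  have h := DworkRationality.map_eq_prod_roots_reverse (coeff_zero_lPoly hk hD hsq hdeg)
  have hpoly : (lPoly D).map (Int.castRingHom ℂ) =
      ((lRoots D).map fun a => (1 : ℂ[X]) - Polynomial.C a * Polynomial.X).prod := by
    refine Polynomial.coe_inj.mp (h.trans ?_)
    rw [← Polynomial.coeToPowerSeries.ringHom_apply, map_multiset_prod, Multiset.map_map, lRoots]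
    refine congrArg Multiset.prod (Multiset.map_congr rfl fun x _ => ?_)
    show _ = ((1 - Polynomial.C x * Polynomial.X : ℂ[X]) : PowerSeries ℂ)
    rw [Polynomial.coe_sub, Polynomial.coe_one, Polynomial.coe_mul, Polynomial.coe_C,
      Polynomial.coe_X]
  have he := congrArg (Polynomial.eval z) hpoly
  rw [eval_multiset_prod, Multiset.map_map, eval_eq_sum_range' (n := 2 * g + 1)
    (natDegree_map_le.trans_lt (by rw [natDegree_lPoly hk hD hsq hdeg]; omega))] at he
  simpa [coeff_map, coeff_lPoly_coeffL hk hD hsq hdeg] using he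

/-- **The coefficients.** -/
theorem abs_coeffL_le {n : ℕ} (hn : n ≤ 2 * g) :
    |(coeffL D n : ℝ)| ≤ ((2 * g).choose n : ℝ) * Real.sqrt (Fintype.card k) ^ n := by
  have h := coeff_le_of_roots_le (f := Int.castRingHom ℂ) (2 * g - n)
    (monic_reverse_lPoly hk hD hsq hdeg) (IsAlgClosed.splits _)
    fun z hz => norm_lRoots_le hk hD hsq (by omega) hz
  rw [natDegree_reverse_lPoly hk hD hsq hdeg, coeff_map, coeff_reverse,
    natDegree_lPoly hk hD hsq hdeg, revAt_le (Nat.sub_le _ _),
    show 2 * g - (2 * g - n) = n by omega, coeff_lPoly_coeffL hk hD hsq hdeg,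
    Nat.choose_symm hn, eq_intCast, Complex.norm_intCast, mul_comm] at h
  exact h

/-- The value at `1` is `q ^ g` times the value at `1 / q`. -/
theorem value_one_eq :
    ∑ n ∈ Finset.range (2 * g + 1), (coeffL D n : ℝ) =
      (Fintype.card k : ℝ) ^ g *
        ∑ n ∈ Finset.range (2 * g + 1), (coeffL D n : ℝ) * (Fintype.card k : ℝ)⁻¹ ^ n := by
  conv_lhs => rw [← Finset.sum_range_reflect]
  rw [Finset.mul_sum]
  refine Finset.sum_congr rfl fun n hn => ?_
  rw [Finset.mem_range] at hn
  have h : (coeffL D n : ℝ) * (Fintype.card k : ℝ) ^ g =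
      (Fintype.card k : ℝ) ^ n * (coeffL D (2 * g - n) : ℝ) := by
    exact_mod_cast coeffL_fe hk hD hsq hdeg (n := n) (by omega)
  rw [show 2 * g + 1 - 1 - n = 2 * g - n by omega, inv_pow]
  have hq : (Fintype.card k : ℝ) ^ n ≠ 0 := pow_ne_zero _ (by simp)
  field_simp
  linear_combination -h

/-- The value at `1 / q` is positive. -/
theorem value_inv_pos :
    0 < ∑ n ∈ Finset.range (2 * g + 1), (coeffL D n : ℝ) * (Fintype.card k : ℝ)⁻¹ ^ n := by
  by_contra hle
  set P := fun u : ℝ => ∑ n ∈ Finset.range (2 * g + 1), (coeffL D n : ℝ) * u ^ n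
  have hq : (1 : ℝ) < Fintype.card k := by exact_mod_cast Fintype.one_lt_card
  have h0 : P 0 = 1 := by
    simp only [P]
    rw [Finset.sum_eq_single_of_mem 0 (by simp) fun n _ hn => by simp [zero_pow hn]]
    simp [coeffL_zero]
  have hcont : Continuous P := by fun_prop
  obtain ⟨t, ⟨ht0, ht1⟩, ht⟩ := intermediate_value_Icc' (inv_nonneg.mpr (by linarith))
    hcont.continuousOn (show (0 : ℝ) ∈ Set.Icc (P (Fintype.card k : ℝ)⁻¹) (P 0) from
      ⟨not_lt.mp hle, by rw [h0]; exact zero_le_one⟩)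
  have hz : (((lRoots D).map fun a => 1 - a * (t : ℂ)).prod) = 0 := by
    rw [← sum_coeffL_mul_pow hk hD hsq hdeg]
    exact_mod_cast congrArg (fun x : ℝ => (x : ℂ)) ht
  obtain ⟨a, ha, ha0⟩ := Multiset.mem_map.mp (Multiset.prod_eq_zero_iff.mp hz)
  have h1 := congrArg (‖·‖) (sub_eq_zero.mp ha0).symm
  simp only [norm_mul, norm_one, norm_lRoots_eq hk hD hsq hdeg ha, Complex.norm_real,
    Real.norm_eq_abs, abs_of_nonneg ht0] at h1
  have hs : 1 < Real.sqrt (Fintype.card k) := by
    rw [Real.lt_sqrt zero_le_one]; simpa using hq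
  have h2 : Real.sqrt (Fintype.card k) * t ≤ Real.sqrt (Fintype.card k) * (Fintype.card k : ℝ)⁻¹ :=
    mul_le_mul_of_nonneg_left ht1 (by positivity)
  have h3 : Real.sqrt (Fintype.card k) * (Fintype.card k : ℝ)⁻¹ < 1 := by
    rw [← div_eq_mul_inv, div_lt_one (by linarith)]
    nlinarith [Real.mul_self_sqrt (Nat.cast_nonneg (α := ℝ) (Fintype.card k))]
  linarith

/-- **The value at `1`.** -/
theorem value_one_bounds :
    (Real.sqrt (Fintype.card k) - 1) ^ (2 * g) ≤ ∑ n ∈ Finset.range (2 * g + 1), (coeffL D n : ℝ) ∧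
      ∑ n ∈ Finset.range (2 * g + 1), (coeffL D n : ℝ) ≤
        (Real.sqrt (Fintype.card k) + 1) ^ (2 * g) := by
  have hpos : 0 < ∑ n ∈ Finset.range (2 * g + 1), (coeffL D n : ℝ) := by
    rw [value_one_eq hk hD hsq hdeg]
    exact mul_pos (pow_pos (Nat.cast_pos.mpr Fintype.card_pos) _) (value_inv_pos hk hD hsq hdeg)
  have hnorm : ∑ n ∈ Finset.range (2 * g + 1), (coeffL D n : ℝ) =
      ‖((lRoots D).map fun a => 1 - a).prod‖ := by
    have h := sum_coeffL_mul_pow hk hD hsq hdeg 1
    simp only [one_pow, mul_one] at h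
    rw [← h, show ∑ n ∈ Finset.range (2 * g + 1), (coeffL D n : ℂ) =
      ((∑ n ∈ Finset.range (2 * g + 1), (coeffL D n : ℝ) : ℝ) : ℂ) by push_cast; rfl,
      Complex.norm_real, Real.norm_eq_abs, abs_of_pos hpos]
  have hcard : Multiset.card ((lRoots D).map fun a => 1 - a) = 2 * g := by
    rw [Multiset.card_map, card_lRoots hk hD hsq hdeg]
  have hs : 1 ≤ Real.sqrt (Fintype.card k) :=
    Real.one_le_sqrt.mpr (Nat.one_le_cast.mpr Fintype.card_pos)
  rw [hnorm, ← hcard]
  constructor
  · refine le_prod_norm (by linarith) fun b hb => ?_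
    obtain ⟨a, ha, rfl⟩ := Multiset.mem_map.mp hb
    rw [← norm_lRoots_eq hk hD hsq hdeg ha, norm_sub_rev]
    simpa using norm_sub_norm_le a 1
  · refine prod_norm_le fun b hb => ?_
    obtain ⟨a, ha, rfl⟩ := Multiset.mem_map.mp hb
    rw [← norm_lRoots_eq hk hD hsq hdeg ha]
    simpa [add_comm] using norm_sub_le (1 : ℂ) a

end FA.QuadraticRH
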