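import Fermat.Agent.QuadraticRH.Gauss

/-!
# The functional equation

Expanding the character in the additive characters of `k[t] / D` turns the sum over the monic
polynomials of degree `n` into the one over degree `2 g - n`.
-/

set_option autoImplicit false
set_option linter.style.openClassical false
set_option linter.style.haveILetI false
set_option linter.unusedSectionVars false

noncomputable section

open scoped Classical

namespace FA.QuadraticRH

open Polynomial QuadraticLFF KurlbergRudnick

variable {k : Type*} [Field k] [Fintype k] {D : k[X]}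

/-- The additive character `e (r / D)`. -/
def eRes (D r : k[X]) : ℂ := addC k ((r %ₘ D).coeff (D.natDegree - 1))

theorem eRes_add (r s : k[X]) : eRes D (r + s) = eRes D r * eRes D s := by
  rw [eRes, eRes, eRes, add_modByMonic, coeff_add, AddChar.map_add_eq_mul]

theorem eRes_congr (hD : D.Monic) {r s : k[X]} (h : D ∣ r - s) : eRes D r = eRes D s := by
  rw [eRes, eRes, show r %ₘ D = s %ₘ D from ?_]
  rw [← sub_eq_zero, ← sub_modByMonic, modByMonic_eq_zero_iff_dvd hD]
  exact h

theorem eRes_of_lt (hD : D.Monic) {r : k[X]} (h : r ∈ lowSet k D.natDegree) :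
    eRes D r = addC k (r.coeff (D.natDegree - 1)) := by
  rw [eRes, (modByMonic_eq_self_iff hD).mpr (degree_lt_of_monic_deg hD h)]

theorem injOn_mul_mod (hD : D.Monic) {r : k[X]} (hc : IsCoprime D r) :
    Set.InjOn (fun s => r * s %ₘ D) ↑(lowSet k D.natDegree) := fun s hs t ht h => by
  refine sub_eq_zero.mp (eq_zero_of_dvd_of_degree_lt (p := D) (hc.dvd_of_dvd_mul_left ?_)
    ((degree_sub_le s t).trans_lt
      (max_lt (degree_lt_of_monic_deg hD hs) (degree_lt_of_monic_deg hD ht))))
  rw [mul_sub, ← modByMonic_eq_zero_iff_dvd hD, sub_modByMonic, sub_eq_zero]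
  exact h

theorem image_mul_mod (hD : D.Monic) {r : k[X]} (hc : IsCoprime D r) :
    (lowSet k D.natDegree).image (fun s => r * s %ₘ D) = lowSet k D.natDegree :=
  Finset.eq_of_subset_of_card_le (fun t ht => by
    obtain ⟨s, -, rfl⟩ := Finset.mem_image.mp ht
    exact mem_lowSet.mpr ((degree_modByMonic_lt _ hD).trans_eq (degree_eq_natDegree hD.ne_zero)))
    (Finset.card_image_of_injOn (injOn_mul_mod hD hc)).ge

/-- A residue prime to `D`, `1` modulo `E`, of symbol `-1`. -/
theorem exists_twist (hk : ringChar k ≠ 2) {P E : k[X]} (hm : P.Monic) (hP : Irreducible P)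
    (hE : E.Monic) (hc : IsCoprime P E) : ∃ u : k[X], E ∣ u - 1 ∧ symbol (P * E) u = -1 := by
  haveI := Fact.mk hP
  haveI : Module.Finite k (AdjoinRoot P) := hm.finite_adjoinRoot
  haveI : Finite (AdjoinRoot P) := Module.finite_of_finite k
  obtain ⟨c, hcc⟩ := quadraticChar_exists_neg_one hk
  obtain ⟨x, hx⟩ := FiniteField.norm_surjective k (AdjoinRoot P) c
  obtain ⟨r, rfl⟩ := AdjoinRoot.mk_surjective x
  obtain ⟨a, b, hab⟩ := hc
  have hd : E ∣ r * (b * E) + a * P - 1 := ⟨(r - 1) * b, by linear_combination hab⟩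
  refine ⟨r * (b * E) + a * P, hd, ?_⟩
  rw [symbol, res_mul_left hm hE, res_congr hE (h := 1) hd, res_one_right hE,
    res_congr hm (h := r) ⟨a * (1 - r), by linear_combination r * hab⟩,
    resultant_eq_norm hm hP, hx, mul_one, hcc]

/-- **Expansion of the character.** -/
theorem sum_symbol_eRes (hk : ringChar k ≠ 2) (hD : D.Monic) (hsq : Squarefree D) (r : k[X]) :
    ∑ s ∈ lowSet k D.natDegree, (symbol D s : ℂ) * eRes D (r * s) =
      (symbol D r : ℂ) * polyGauss D := by
  by_cases hc : IsCoprime D r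
  · have h1 : symbol D r * symbol D r = 1 := by
      rw [← pow_two, symbol]
      exact quadraticChar_sq_one ((res_ne_zero_iff hD).mpr hc)
    have h2 : polyGauss D =
        (symbol D r : ℂ) * ∑ s ∈ lowSet k D.natDegree, (symbol D s : ℂ) * eRes D (r * s) := by
      conv_lhs => rw [polyGauss, ← image_mul_mod hD hc, Finset.sum_image (injOn_mul_mod hD hc)]
      rw [Finset.mul_sum]
      refine Finset.sum_congr rfl fun s _ => ?_
      rw [← eRes, symbol_congr hD (E := r * s) ⟨-(r * s /ₘ D), by
        linear_combination modByMonic_add_div (r * s) D⟩, symbol_mul_right hD]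
      push_cast
      ring
    rw [h2, ← mul_assoc, ← Int.cast_mul, h1, Int.cast_one, one_mul]
  · have h0 : symbol D r = 0 := by
      rw [symbol, not_not.mp (mt (res_ne_zero_iff hD).mp hc), quadraticChar_zero]
    obtain ⟨P', hP', hPD', hPr'⟩ : ∃ P, Irreducible P ∧ P ∣ D ∧ P ∣ r := by
      by_contra hno
      push Not at hno
      exact hc (isCoprime_of_irreducible_dvd (fun h => hD.ne_zero h.1) hno)
    have hm := monic_normalize hP'.ne_zero
    have hP : Irreducible (normalize P') := (normalize_associated P').symm.irreducible hP'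
    obtain ⟨E, rfl⟩ : normalize P' ∣ D := normalize_dvd_iff.mpr hPD'
    have hPr : normalize P' ∣ r := normalize_dvd_iff.mpr hPr'
    generalize normalize P' = P at hm hP hD hsq hPr hc h0
    have hE := hm.of_mul_monic_left hD
    obtain ⟨u, hu, hsu⟩ := exists_twist hk hm hP hE (squarefree_mul_iff.mp hsq).1.isCoprime
    have hcu : IsCoprime (P * E) u := (res_ne_zero_iff hD).mp fun e => by
      rw [symbol, e, quadraticChar_zero] at hsu
      exact absurd hsu (by norm_num)
    rw [h0, Int.cast_zero, zero_mul]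
    have hneg : ∑ s ∈ lowSet k (P * E).natDegree, (symbol (P * E) s : ℂ) * eRes (P * E) (r * s) =
        -∑ s ∈ lowSet k (P * E).natDegree, (symbol (P * E) s : ℂ) * eRes (P * E) (r * s) := by
      conv_lhs => rw [← image_mul_mod hD hcu, Finset.sum_image (injOn_mul_mod hD hcu)]
      rw [← Finset.sum_neg_distrib]
      refine Finset.sum_congr rfl fun s _ => ?_
      rw [symbol_congr hD (E := u * s) ⟨-(u * s /ₘ (P * E)), by
          linear_combination modByMonic_add_div (u * s) (P * E)⟩, symbol_mul_right hD, hsu,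
        eRes_congr hD (s := r * s) ?_]
      · push_cast
        ring
      have hd : P * E ∣ r * (u - 1) := mul_dvd_mul hPr hu
      rw [show r * (u * s %ₘ (P * E)) - r * s =
          r * (u - 1) * s - P * E * (r * (u * s /ₘ (P * E))) by
        linear_combination r * modByMonic_add_div (u * s) (P * E)]
      exact dvd_sub (hd.mul_right s) (dvd_mul_right _ _)
    linear_combination hneg / 2

/-- Orthogonality of `e (l s / D)` over the `l` of degree less than `n`. -/
theorem sum_eRes (hD : D.Monic) {n : ℕ} (hn : n < D.natDegree) {s : k[X]}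
    (hs : s ∈ lowSet k D.natDegree) :
    ∑ l ∈ lowSet k n, eRes D (l * s) =
      if s ∈ lowSet k (D.natDegree - n) then (Fintype.card k : ℂ) ^ n else 0 := by
  split_ifs with hlt
  · rw [Finset.sum_congr rfl fun l hl => ?_, Finset.sum_const, card_lowSet, nsmul_eq_mul, mul_one,
      Nat.cast_pow]
    rcases eq_or_ne (l * s) 0 with h0 | h0
    · simp [eRes, h0]
    obtain ⟨hl0, hs0⟩ := mul_ne_zero_iff.mp h0
    have h1 := (natDegree_lt_iff_degree_lt hl0).mpr (mem_lowSet.mp hl)
    have h2 := (natDegree_lt_iff_degree_lt hs0).mpr (mem_lowSet.mp hlt)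
    have h3 := natDegree_mul hl0 hs0
    rw [eRes_of_lt hD (mem_lowSet.mpr ((natDegree_lt_iff_degree_lt h0).mp (by omega))),
      coeff_eq_zero_of_natDegree_lt (by omega), AddChar.map_zero_eq_one]
  · have hs0 : s ≠ 0 := fun e => hlt (mem_lowSet.mpr (by simp [e]))
    have h1 : D.natDegree - n ≤ s.natDegree := not_lt.mp fun h =>
      hlt (mem_lowSet.mpr ((natDegree_lt_iff_degree_lt hs0).mp h))
    have h2 := (natDegree_lt_iff_degree_lt hs0).mpr (mem_lowSet.mp hs)
    have hne : addC k ≠ 1 := by
      simpa using addC_isPrimitive k (one_ne_zero : (1 : k) ≠ 0)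
    obtain ⟨b, hb⟩ := AddChar.ne_one_iff.mp hne
    set i := D.natDegree - 1 - s.natDegree with hi
    set l₀ := C (b / s.leadingCoeff) * X ^ i with hl₀
    have hb0 : b ≠ 0 := fun e => hb (by rw [e, AddChar.map_zero_eq_one])
    have hc : b / s.leadingCoeff ≠ 0 := div_ne_zero hb0 (leadingCoeff_ne_zero.mpr hs0)
    have hl0 : l₀ ∈ lowSet k n := by
      rw [mem_lowSet, hl₀, degree_C_mul_X_pow i hc]
      exact_mod_cast (show i < n by omega)
    have hval : eRes D (l₀ * s) = addC k b := by
      have hne0 : l₀ ≠ 0 := mul_ne_zero (C_ne_zero.mpr hc) (pow_ne_zero _ X_ne_zero)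
      have hdeg : (l₀ * s).natDegree = D.natDegree - 1 := by
        rw [natDegree_mul hne0 hs0, hl₀, natDegree_C_mul_X_pow i _ hc]
        omega
      rw [eRes_of_lt hD (mem_lowSet.mpr ((natDegree_lt_iff_degree_lt (mul_ne_zero hne0 hs0)).mp
        (by omega))), ← hdeg, coeff_natDegree, leadingCoeff_mul, hl₀, leadingCoeff_C_mul_X_pow,
        div_mul_cancel₀ _ (leadingCoeff_ne_zero.mpr hs0)]
    have hshift : ∑ l ∈ lowSet k n, eRes D (l * s) =
        addC k b * ∑ l ∈ lowSet k n, eRes D (l * s) := by
      rw [Finset.mul_sum]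
      refine Finset.sum_nbij' (· - l₀) (· + l₀) ?_ ?_ ?_ ?_ ?_
      · intro l hl
        exact mem_lowSet.mpr ((degree_sub_le _ _).trans_lt
          (max_lt (mem_lowSet.mp hl) (mem_lowSet.mp hl0)))
      · intro l hl
        exact mem_lowSet.mpr ((degree_add_le _ _).trans_lt
          (max_lt (mem_lowSet.mp hl) (mem_lowSet.mp hl0)))
      · intro l _; exact sub_add_cancel l l₀
      · intro l _; exact add_sub_cancel_right l l₀
      · intro l _
        rw [← hval, ← eRes_add]
        exact congrArg _ (by ring)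
    have h3 : (addC k b - 1) * ∑ l ∈ lowSet k n, eRes D (l * s) = 0 := by linear_combination -hshift
    exact (mul_eq_zero.mp h3).resolve_left (sub_ne_zero.mpr hb)

theorem symbol_C (hodd : Odd D.natDegree) (a : k) :
    symbol D (C a) = quadraticChar k a := by
  rw [symbol, natDegree_C, resultant_C_zero_right, map_pow]
  obtain ⟨t, ht⟩ := hodd
  rcases eq_or_ne a 0 with rfl | ha
  · rw [quadraticChar_zero, ht, zero_pow (by omega)]
  · rw [ht, pow_succ, pow_mul, quadraticChar_sq_one ha, one_pow, one_mul]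

/-- The sum over the monic polynomials of degree `n`. -/
def monicSum (D : k[X]) (n : ℕ) : ℤ := ∑ f ∈ monicSet k n, symbol D f

theorem sum_low_symbol (hk : ringChar k ≠ 2) (hD : D.Monic) (hodd : Odd D.natDegree) (j : ℕ) :
    ∑ s ∈ lowSet k j, symbol D s = 0 := by
  obtain ⟨a, ha⟩ := quadraticChar_exists_neg_one hk
  have ha0 : a ≠ 0 := fun e => by rw [e, quadraticChar_zero] at ha; exact absurd ha (by norm_num)
  have h : ∑ s ∈ lowSet k j, symbol D s = -∑ s ∈ lowSet k j, symbol D s := by
    rw [← Finset.sum_neg_distrib]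
    refine Finset.sum_nbij' (C a⁻¹ * ·) (C a * ·) ?_ ?_ ?_ ?_ ?_
    · intro s hs
      exact mem_lowSet.mpr (by rw [degree_C_mul (inv_ne_zero ha0)]; exact mem_lowSet.mp hs)
    · intro s hs
      exact mem_lowSet.mpr (by rw [degree_C_mul ha0]; exact mem_lowSet.mp hs)
    · intro s _; simp [← mul_assoc, ← C_mul, ha0]
    · intro s _; simp [← mul_assoc, ← C_mul, ha0]
    · intro s _
      have ha' : quadraticChar k a⁻¹ = -1 := by
        have h1 : quadraticChar k a * quadraticChar k a⁻¹ = 1 := by
          rw [← map_mul, mul_inv_cancel₀ ha0, map_one]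
        rw [ha] at h1
        linarith
      rw [symbol_mul_right hD, symbol_C hodd, ha', neg_one_mul, neg_neg]
  omega

/-- The weighted sum over the polynomials of degree at most `j`. -/
theorem sum_low_succ (hk : ringChar k ≠ 2) (hD : D.Monic) (hodd : Odd D.natDegree) (j : ℕ) :
    ∑ s ∈ lowSet k (j + 1), (symbol D s : ℂ) * addC k (s.coeff j) =
      baseGauss k * (monicSum D j : ℂ) := by
  have h : ∑ s ∈ lowSet k (j + 1), (symbol D s : ℂ) * addC k (s.coeff j) =
      ∑ a : k, ∑ l ∈ lowSet k j, (symbol D (C a * X ^ j + l) : ℂ) * addC k a := by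
    rw [← Finset.sum_product']
    refine Finset.sum_nbij' (fun s => (s.coeff j, s - C (s.coeff j) * X ^ j))
      (fun x => C x.1 * X ^ j + x.2) ?_ ?_ ?_ ?_ ?_
    · intro s hs
      refine Finset.mem_product.mpr ⟨Finset.mem_univ _, mem_lowSet.mpr ?_⟩
      refine (degree_lt_iff_coeff_zero _ _).mpr fun i hi => ?_
      rw [coeff_sub, coeff_C_mul_X_pow]
      rcases eq_or_ne i j with rfl | hne
      · simp
      · rw [if_neg hne, sub_zero]
        exact (degree_lt_iff_coeff_zero _ _).mp (mem_lowSet.mp hs) i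
          (by omega)
    · intro x hx
      refine mem_lowSet.mpr ((degree_add_le _ _).trans_lt (max_lt ?_ ?_))
      · exact (degree_C_mul_X_pow_le j x.1).trans_lt (by exact_mod_cast Nat.lt_succ_self j)
      · exact (mem_lowSet.mp (Finset.mem_product.mp hx).2).trans
          (by exact_mod_cast Nat.lt_succ_self j)
    · intro s _; simp
    · intro x hx
      have h0 := coeff_eq_zero_of_degree_lt (mem_lowSet.mp (Finset.mem_product.mp hx).2)
      simp [h0]
    · intro s _; simp
  rw [h, baseGauss, gaussSum, Finset.sum_mul]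
  refine Finset.sum_congr rfl fun a _ => ?_
  rw [← Finset.sum_mul, mul_right_comm, chiC_apply]
  congr 1
  rcases eq_or_ne a 0 with rfl | ha
  · simp only [C_0, zero_mul, zero_add, quadraticChar_zero, Int.cast_zero]
    rw [← Int.cast_sum, sum_low_symbol hk hD hodd, Int.cast_zero]
  rw [← Int.cast_sum, ← Int.cast_mul, monicSum, Finset.mul_sum]
  congr 1
  refine Finset.sum_nbij' (fun l => X ^ j + C a⁻¹ * l) (fun f => C a * (f - X ^ j)) ?_ ?_ ?_ ?_ ?_
  · intro l hl
    have hlt : (C a⁻¹ * l).degree < (j : ℕ) := by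
      rw [degree_C_mul (inv_ne_zero ha)]; exact mem_lowSet.mp hl
    refine mem_monicSet.mpr ⟨monic_X_pow_add hlt, natDegree_eq_of_degree_eq_some ?_⟩
    rw [degree_add_eq_left_of_degree_lt (by rwa [degree_X_pow]), degree_X_pow]
  · intro f hf
    obtain ⟨hfm, hfd⟩ := mem_monicSet.mp hf
    rw [mem_lowSet, degree_C_mul ha]
    have hdeg : f.degree = (j : WithBot ℕ) := by rw [degree_eq_natDegree hfm.ne_zero, hfd]
    exact hdeg ▸ degree_sub_lt_left (hdeg.trans (degree_X_pow j).symm) hfm.ne_zero
      (by rw [hfm.leadingCoeff, (monic_X_pow j).leadingCoeff])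
  · intro l _; simp [← mul_assoc, ← C_mul, ha]
  · intro f _; simp [← mul_assoc, ← C_mul, ha]
  · intro l _
    rw [← symbol_C hodd a, ← symbol_mul_right hD, mul_add, ← mul_assoc, ← C_mul,
      mul_inv_cancel₀ ha, C_1, one_mul]

/-- **The functional equation.** -/
theorem monicSum_fe (hk : ringChar k ≠ 2) (hD : D.Monic) (hsq : Squarefree D) {g n : ℕ}
    (hdeg : D.natDegree = 2 * g + 1) (hn : n ≤ 2 * g) :
    monicSum D n * (Fintype.card k : ℤ) ^ g =
      (Fintype.card k : ℤ) ^ n * monicSum D (2 * g - n) := by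
  have hodd : Odd D.natDegree := hdeg ▸ odd_two_mul_add_one g
  have key : (monicSum D n : ℂ) * polyGauss D =
      (Fintype.card k : ℂ) ^ n * (baseGauss k * (monicSum D (2 * g - n) : ℂ)) := by
    have h1 : (monicSum D n : ℂ) * polyGauss D = ∑ s ∈ lowSet k D.natDegree,
        (symbol D s : ℂ) * (eRes D (X ^ n * s) * ∑ l ∈ lowSet k n, eRes D (l * s)) := by
      rw [monicSum, Int.cast_sum, Finset.sum_mul,
        Finset.sum_congr rfl fun r _ => (sum_symbol_eRes hk hD hsq r).symm, Finset.sum_comm]
      refine Finset.sum_congr rfl fun s _ => ?_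
      rw [← Finset.mul_sum, Finset.mul_sum (s := lowSet k n)]
      congr 1
      refine Finset.sum_nbij' (fun r => r - X ^ n) (fun l => X ^ n + l) ?_ ?_ ?_ ?_ ?_
      · intro f hf
        obtain ⟨hfm, hfd⟩ := mem_monicSet.mp hf
        have hd : f.degree = (n : WithBot ℕ) := by rw [degree_eq_natDegree hfm.ne_zero, hfd]
        exact mem_lowSet.mpr (hd ▸ degree_sub_lt_left (hd.trans (degree_X_pow n).symm)
          hfm.ne_zero (by rw [hfm.leadingCoeff, (monic_X_pow n).leadingCoeff]))
      · intro l hl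
        have hlt := mem_lowSet.mp hl
        refine mem_monicSet.mpr ⟨monic_X_pow_add hlt, natDegree_eq_of_degree_eq_some ?_⟩
        rw [degree_add_eq_left_of_degree_lt (by rwa [degree_X_pow]), degree_X_pow]
      · intro f _; simp
      · intro l _; simp
      · intro f _
        rw [← eRes_add]
        exact congrArg _ (by ring)
    rw [h1, Finset.sum_congr rfl fun s hs => by rw [sum_eRes hD (by omega) hs]]
    simp only [mul_ite, mul_zero, ← Finset.sum_filter]
    rw [show (lowSet k D.natDegree).filter (· ∈ lowSet k (D.natDegree - n)) =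
      lowSet k (2 * g - n + 1) from ?_, ← sum_low_succ hk hD hodd (2 * g - n), Finset.mul_sum]
    · refine Finset.sum_congr rfl fun s hs => ?_
      rw [eRes_of_lt hD, coeff_X_pow_mul', if_pos (by omega),
        show D.natDegree - 1 - n = 2 * g - n by omega]
      · ring
      rcases eq_or_ne s 0 with rfl | h0
      · exact mem_lowSet.mpr (by simp)
      have hne : X ^ n * s ≠ 0 := mul_ne_zero (pow_ne_zero _ X_ne_zero) h0
      refine mem_lowSet.mpr ((natDegree_lt_iff_degree_lt hne).mp ?_)
      have := (natDegree_lt_iff_degree_lt h0).mpr (mem_lowSet.mp hs)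
      rw [natDegree_mul (pow_ne_zero _ X_ne_zero) h0, natDegree_X_pow]
      omega
    · ext s
      simp only [Finset.mem_filter, mem_lowSet]
      rw [show D.natDegree - n = 2 * g - n + 1 by omega]
      exact ⟨fun h => h.2, fun h => ⟨h.trans_le (Nat.cast_le.mpr (by omega)), h⟩⟩
  have hG : polyGauss D = (Fintype.card k : ℂ) ^ g * baseGauss k := by
    rw [polyGauss_eq hk hD hsq, hdeg, show (2 * g + 1) * (2 * g + 1 - 1) / 2 = g * (2 * g + 1) by
      rw [Nat.add_sub_cancel, show (2 * g + 1) * (2 * g) = 2 * (g * (2 * g + 1)) by ring]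
      omega, pow_succ (baseGauss k), pow_mul (baseGauss k), baseGauss_sq hk, mul_pow, ← map_pow,
      ← mul_assoc, ← mul_assoc, ← map_mul, ← pow_add,
      show g * (2 * g + 1) + g = 2 * (g * g + g) by ring, pow_mul, neg_one_sq, one_pow, map_one,
      one_mul]
  rw [hG] at key
  have h2 : (baseGauss k) * ((monicSum D n : ℂ) * (Fintype.card k : ℂ) ^ g) =
      baseGauss k * ((Fintype.card k : ℂ) ^ n * (monicSum D (2 * g - n) : ℂ)) := by
    linear_combination key
  exact_mod_cast mul_left_cancel₀ (baseGauss_ne_zero hk) h2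

/-- **The functional equation of the coefficients.** -/
theorem coeffL_fe (hk : ringChar k ≠ 2) (hD : D.Monic) (hsq : Squarefree D) {g n : ℕ}
    (hdeg : D.natDegree = 2 * g + 1) (hn : n ≤ 2 * g) :
    coeffL D n * (Fintype.card k : ℤ) ^ g = (Fintype.card k : ℤ) ^ n * coeffL D (2 * g - n) := by
  have h : ∀ j, coeffL D j =
      quadraticChar k ((-1) ^ (j * D.natDegree)) * monicSum D j := fun j => by
    rw [coeffL, monicSum, Finset.mul_sum]
    exact Finset.sum_congr rfl fun f hf => by rw [symbol_swap f D, (mem_monicSet.mp hf).2]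
  rw [h, h, mul_assoc, monicSum_fe hk hD hsq hdeg hn, mul_left_comm]
  congr 2
  obtain ⟨a, rfl⟩ : ∃ a, D.natDegree = a := ⟨_, rfl⟩
  rw [neg_one_pow_eq_pow_mod_two, neg_one_pow_eq_pow_mod_two (n := (2 * g - n) * D.natDegree),
    hdeg, Nat.mul_mod, Nat.mul_mod (2 * g - n), show (2 * g - n) % 2 = n % 2 by omega]

theorem coeffL_top (hk : ringChar k ≠ 2) (hD : D.Monic) (hsq : Squarefree D) {g : ℕ}
    (hdeg : D.natDegree = 2 * g + 1) : coeffL D (2 * g) = (Fintype.card k : ℤ) ^ g := by
  have h := coeffL_fe hk hD hsq hdeg (Nat.zero_le _)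
  rw [coeffL_zero, one_mul, pow_zero, one_mul, Nat.sub_zero] at h
  exact h.symm

end FA.QuadraticRH
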