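import Fermat.Agent.QuadraticLFF.Sums
import Fermat.Agent.DavenportHasse.Lifting
import Mathlib.LinearAlgebra.Lagrange
import Mathlib.NumberTheory.LegendreSymbol.Complex

/-!
# The Gauss sum of the quadratic character modulo a squarefree polynomial

It is multiplicative up to reciprocity, at an irreducible it is a lifted Gauss sum (Davenport and
Hasse), and so for squarefree monic `D` of degree `m` it is `χ (-1) ^ (m (m - 1) / 2) g ^ m`.
-/

set_option autoImplicit false
set_option linter.style.openClassical false
set_option linter.style.haveILetI false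
set_option linter.unusedSectionVars false

noncomputable section

open scoped Classical

namespace FA.QuadraticRH

open Polynomial QuadraticLFF

variable {k : Type*} [Field k] [Fintype k]

variable (k) in
/-- The quadratic character with complex values. -/
def chiC : MulChar k ℂ := (quadraticChar k).ringHomComp (Int.castRingHom ℂ)

theorem chiC_apply (x : k) : chiC k x = ((quadraticChar k x : ℤ) : ℂ) := rfl

variable (k) in
/-- A primitive additive character. -/
def addC : AddChar k ℂ := AddChar.FiniteField.primitiveChar_to_Complex k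

variable (k) in
theorem addC_isPrimitive : (addC k).IsPrimitive :=
  AddChar.FiniteField.primitiveChar_to_Complex_isPrimitive k

theorem chiC_ne_one (hk : ringChar k ≠ 2) : chiC k ≠ 1 := fun h => by
  obtain ⟨a, ha⟩ := quadraticChar_exists_neg_one hk
  have ha0 : a ≠ 0 := fun e => by rw [e, quadraticChar_zero] at ha; exact absurd ha (by norm_num)
  have := congrArg (fun c : MulChar k ℂ => c a) h
  rw [chiC_apply, ha, MulChar.one_apply (isUnit_iff_ne_zero.mpr ha0)] at this
  norm_num at this

variable (k) in
/-- The Gauss sum of the field. -/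
def baseGauss : ℂ := gaussSum (chiC k) (addC k)

theorem baseGauss_sq (hk : ringChar k ≠ 2) :
    baseGauss k ^ 2 = chiC k (-1) * Fintype.card k :=
  gaussSum_sq (chiC_ne_one hk) ((quadraticChar_isQuadratic k).comp _) (addC_isPrimitive k)

theorem baseGauss_ne_zero (hk : ringChar k ≠ 2) : baseGauss k ≠ 0 := fun h => by
  have h2 := baseGauss_sq hk
  rw [h, zero_pow two_ne_zero, chiC_apply] at h2
  rcases quadraticChar_dichotomy (neg_ne_zero.mpr (one_ne_zero : (1 : k) ≠ 0)) with e | e <;>
    rw [e] at h2 <;> simp [eq_comm, Fintype.card_ne_zero] at h2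

/-- The Gauss sum modulo `D`. -/
def polyGauss (D : k[X]) : ℂ :=
  ∑ s ∈ lowSet k D.natDegree, (symbol D s : ℂ) * addC k (s.coeff (D.natDegree - 1))

theorem polyGauss_one : polyGauss (1 : k[X]) = 1 := by
  have h : lowSet k 0 = {0} := by
    ext s
    rw [mem_lowSet, Finset.mem_singleton, Nat.cast_zero]
    exact ⟨fun h => degree_eq_bot.mp (Nat.WithBot.lt_zero_iff.mp h),
      fun h => by rw [h, degree_zero]; exact WithBot.bot_lt_coe _⟩
  rw [polyGauss, natDegree_one, h, Finset.sum_singleton, symbol_one_left]
  simp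

theorem coeff_mul_monic {d : ℕ} {s E : k[X]} (hs : s ∈ lowSet k d) (hE : E.Monic) :
    (s * E).coeff (d + E.natDegree - 1) = s.coeff (d - 1) := by
  rcases eq_or_ne s 0 with rfl | h0
  · simp
  have hd := (natDegree_lt_iff_degree_lt h0).mpr (mem_lowSet.mp hs)
  obtain ⟨d, rfl⟩ : ∃ e, d = e + 1 := ⟨d - 1, by omega⟩
  rw [show d + 1 + E.natDegree - 1 = d + E.natDegree by omega,
    coeff_mul_add_eq_of_natDegree_le (by omega) le_rfl, hE.coeff_natDegree, mul_one,
    Nat.add_sub_cancel]

/-- **Multiplicativity.** -/
theorem polyGauss_mul {D E : k[X]} (hD : D.Monic) (hE : E.Monic)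
    (hc : IsCoprime D E) :
    polyGauss (D * E) =
      chiC k ((-1) ^ (D.natDegree * E.natDegree)) * polyGauss D * polyGauss E := by
  set φ := fun x : k[X] × k[X] => x.1 * E + x.2 * D with hφ
  have hinj : Set.InjOn φ ↑(lowSet k D.natDegree ×ˢ lowSet k E.natDegree) := by
    rintro ⟨s, t⟩ hx ⟨s', t'⟩ hy (h : s * E + t * D = s' * E + t' * D)
    simp only [Finset.mem_coe, Finset.mem_product] at hx hy
    have h1 : s - s' = 0 := eq_zero_of_dvd_of_degree_lt (p := D)
      (hc.dvd_of_dvd_mul_right ⟨t' - t, by linear_combination h⟩)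
      ((degree_sub_le s s').trans_lt
        (max_lt (degree_lt_of_monic_deg hD hx.1) (degree_lt_of_monic_deg hD hy.1)))
    have h2 : t * D = t' * D := by linear_combination h - E * h1
    exact Prod.ext (sub_eq_zero.mp h1) (mul_right_cancel₀ hD.ne_zero h2)
  have hdeg : (D * E).natDegree = D.natDegree + E.natDegree := hD.natDegree_mul hE
  have himg : (lowSet k D.natDegree ×ˢ lowSet k E.natDegree).image φ =
      lowSet k (D * E).natDegree := by
    refine Finset.eq_of_subset_of_card_le (fun r hr => ?_) ?_
    · obtain ⟨⟨s, t⟩, hx, rfl⟩ := Finset.mem_image.mp hr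
      obtain ⟨hs, ht⟩ := Finset.mem_product.mp hx
      have e : ∀ (a : k[X]) (P Q : k[X]), P.Monic → Q.Monic → a ∈ lowSet k P.natDegree →
          (a * Q).degree < ((P.natDegree + Q.natDegree : ℕ) : WithBot ℕ) := by
        intro a P Q hP hQ ha
        rcases eq_or_ne a 0 with rfl | h0
        · rw [zero_mul, degree_zero]; exact WithBot.bot_lt_coe _
        have := (natDegree_lt_iff_degree_lt h0).mpr (mem_lowSet.mp ha)
        rw [← natDegree_lt_iff_degree_lt (mul_ne_zero h0 hQ.ne_zero),
          natDegree_mul h0 hQ.ne_zero]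
        omega
      rw [mem_lowSet, hdeg, hφ]
      refine (degree_add_le _ _).trans_lt (max_lt (e s D E hD hE hs) ?_)
      have := e t E D hE hD ht
      rwa [add_comm E.natDegree] at this
    · rw [Finset.card_image_of_injOn hinj, Finset.card_product, card_lowSet, card_lowSet,
        card_lowSet, hdeg, pow_add]
  rw [polyGauss, ← himg, Finset.sum_image hinj, Finset.sum_product, polyGauss, polyGauss,
    mul_assoc, Finset.sum_mul_sum, Finset.mul_sum]
  refine Finset.sum_congr rfl fun s hs => ?_
  rw [Finset.mul_sum]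
  refine Finset.sum_congr rfl fun t ht => ?_
  have hcoeff : (φ (s, t)).coeff ((D * E).natDegree - 1) =
      s.coeff (D.natDegree - 1) + t.coeff (E.natDegree - 1) := by
    rw [hφ, coeff_add, hdeg, coeff_mul_monic hs hE, add_comm D.natDegree,
      coeff_mul_monic ht hD]
  have hres : resultant (D * E) (φ (s, t)) =
      resultant D E * resultant E D * (resultant D s * resultant E t) := by
    rw [hφ, res_mul_left hD hE, res_congr hD (h := s * E) ⟨t, by ring⟩,
      res_congr hE (h := t * D) ⟨s, by ring⟩, res_mul_right hD, res_mul_right hE]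
    ring
  have hsign : quadraticChar k (resultant D E * resultant E D) =
      quadraticChar k ((-1) ^ (D.natDegree * E.natDegree)) := by
    have h0 : resultant D E ≠ 0 := (res_ne_zero_iff hD).mpr hc
    rw [resultant_comm E D, mul_left_comm, ← pow_two, map_mul,
      quadraticChar_sq_one' h0, mul_one, mul_comm E.natDegree]
  rw [symbol, hres, map_mul, hsign, map_mul, hcoeff, AddChar.map_add_eq_mul, chiC_apply]
  simp only [symbol]
  push_cast
  ring

/-- Euler's formula for the trace. -/
theorem trace_div_derivative {P : k[X]} (hm : P.Monic) (hP : Irreducible P) [Fact (Irreducible P)]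
    {s : k[X]} (hs : s ∈ lowSet k P.natDegree) :
    Algebra.trace k (AdjoinRoot P) (AdjoinRoot.mk P s / AdjoinRoot.mk P (derivative P)) =
      s.coeff (P.natDegree - 1) := by
  haveI : Module.Finite k (AdjoinRoot P) := hm.finite_adjoinRoot
  set K := AlgebraicClosure k
  set φ := algebraMap k K
  refine φ.injective ?_
  rw [trace_eq_sum_embeddings K]
  set R := (P.map φ).roots.toFinset with hR
  have hnd : (P.map φ).roots.Nodup :=
    nodup_roots (Separable.map (PerfectField.separable_of_irreducible hP))
  have hcard : R.card = P.natDegree := by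
    rw [hR, Multiset.toFinset_card_of_nodup hnd, IsAlgClosed.card_roots_eq_natDegree,
      natDegree_map]
  have hnodal : P.map φ = Lagrange.nodal R id := by
    conv_lhs => rw [(IsAlgClosed.splits (P.map φ)).eq_prod_roots_of_monic (hm.map φ)]
    rw [Lagrange.nodal, Finset.prod_eq_multiset_prod, hR, Multiset.toFinset_val, hnd.dedup]
    rfl
  have hlag := Lagrange.coeff_eq_sum (s := R) (v := id) (P := s.map φ) Function.injective_id.injOn
    (by rw [degree_map, hcard]; exact mem_lowSet.mp hs)
  rw [coeff_map, hcard] at hlag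
  rw [hlag]
  refine Finset.sum_bij (fun σ _ => σ (AdjoinRoot.root P)) (fun σ _ => ?_)
    (fun σ _ τ _ h => AdjoinRoot.algHom_ext h) (fun x hx => ?_) fun σ _ => ?_
  · rw [hR, Multiset.mem_toFinset, mem_roots (hm.map _).ne_zero, IsRoot, eval_map_algebraMap,
      aeval_algHom_apply, AdjoinRoot.aeval_eq, AdjoinRoot.mk_self, map_zero]
  · rw [hR, Multiset.mem_toFinset] at hx
    exact ⟨(AdjoinRoot.equiv K k P hP.ne_zero).symm ⟨x, hx⟩, Finset.mem_univ _,
      congrArg Subtype.val ((AdjoinRoot.equiv K k P hP.ne_zero).apply_symm_apply ⟨x, hx⟩)⟩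
  · have hmem : σ (AdjoinRoot.root P) ∈ R := by
      rw [hR, Multiset.mem_toFinset, mem_roots (hm.map _).ne_zero, IsRoot, eval_map_algebraMap,
        aeval_algHom_apply, AdjoinRoot.aeval_eq, AdjoinRoot.mk_self, map_zero]
    have hd : (Finset.prod (R.erase (σ (AdjoinRoot.root P))) fun b => id (σ (AdjoinRoot.root P)) -
        id b) = ((derivative P).map φ).eval (σ (AdjoinRoot.root P)) := by
      rw [← derivative_map, hnodal]
      exact ((Lagrange.eval_nodal_derivative_eval_node_eq (v := id) hmem).trans
        Lagrange.eval_nodal).symm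
    rw [hd, map_div₀, eval_map_algebraMap, eval_map_algebraMap, id_eq, aeval_algHom_apply,
      aeval_algHom_apply, AdjoinRoot.aeval_eq, AdjoinRoot.aeval_eq]

/-- **At an irreducible**: Davenport and Hasse. -/
theorem polyGauss_irreducible (hk : ringChar k ≠ 2) {P : k[X]} (hm : P.Monic)
    (hP : Irreducible P) :
    polyGauss P =
      chiC k ((-1) ^ (P.natDegree * (P.natDegree - 1) / 2)) * baseGauss k ^ P.natDegree := by
  haveI := Fact.mk hP
  haveI : Module.Finite k (AdjoinRoot P) := hm.finite_adjoinRoot
  haveI : Finite (AdjoinRoot P) := Module.finite_of_finite k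
  haveI := Fintype.ofFinite (AdjoinRoot P)
  set L := AdjoinRoot P
  set d := P.natDegree
  set u := AdjoinRoot.mk P (derivative P)
  have hu : u ≠ 0 := fun h => by
    have hsep : P.Separable := PerfectField.separable_of_irreducible hP
    exact hP.not_isUnit (hsep.isUnit_of_dvd' dvd_rfl (AdjoinRoot.mk_eq_zero.mp h))
  have h1 : polyGauss P =
      ∑ x : L, chiC k (Algebra.norm k x) * addC k (Algebra.trace k L (x / u)) := by
    refine Finset.sum_bij (fun s _ => AdjoinRoot.mk P s) (fun _ _ => Finset.mem_univ _)
      (fun s hs t ht h => ?_) (fun x _ => ?_) fun s hs => ?_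
    · exact sub_eq_zero.mp (eq_zero_of_dvd_of_degree_lt (AdjoinRoot.mk_eq_mk.mp h)
        ((degree_sub_le s t).trans_lt
          (max_lt (degree_lt_of_monic_deg hm hs) (degree_lt_of_monic_deg hm ht))))
    · obtain ⟨r, rfl⟩ := AdjoinRoot.mk_surjective x
      exact ⟨r %ₘ P, mem_lowSet.mpr
        ((degree_modByMonic_lt _ hm).trans_eq (degree_eq_natDegree hm.ne_zero)),
        AdjoinRoot.mk_eq_mk.mpr ⟨-(r /ₘ P), by linear_combination modByMonic_add_div r P⟩⟩
    · rw [trace_div_derivative hm hP hs, chiC_apply, symbol, resultant_eq_norm hm hP]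
  have h2 : polyGauss P = chiC k (Algebra.norm k u) *
      gaussSum (DavenportHasse.normChar L (chiC k)) (DavenportHasse.traceAddChar L (addC k)) := by
    rw [h1, ← Equiv.sum_comp (Equiv.mulLeft₀ u hu), gaussSum, Finset.mul_sum]
    refine Finset.sum_congr rfl fun y _ => ?_
    rw [Equiv.mulLeft₀_apply, mul_div_cancel_left₀ _ hu, map_mul, map_mul,
      DavenportHasse.normChar_apply, DavenportHasse.traceAddChar_apply, mul_assoc]
  have hfin : Module.finrank k L = d := by
    rw [(AdjoinRoot.powerBasis hP.ne_zero).finrank, AdjoinRoot.powerBasis_dim]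
  have hDH := DavenportHasse.neg_gaussSum_normChar (E := L) (chiC k) (addC k) (chiC_ne_one hk)
  rw [hfin, neg_eq_iff_eq_neg] at hDH
  have hchi : quadraticChar k (Algebra.norm k u) =
      quadraticChar k ((-1) ^ (d * (d - 1) / 2)) * (-1) ^ (d + 1) := by
    rw [← BunyakovskyFails.quadraticChar_disc_irreducible hk hm hP, ← map_mul,
      BunyakovskyFails.disc, ← mul_assoc, ← mul_pow, neg_one_mul, neg_neg, one_pow, one_mul,
      resultant_eq_norm hm hP]
  rw [h2, hDH, chiC_apply, hchi, chiC_apply, neg_pow (gaussSum _ _)]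
  push_cast
  rw [pow_succ (-1 : ℂ) d, baseGauss]
  have hs : ((-1 : ℂ) ^ d) * (-1) ^ d = 1 := by
    rw [← mul_pow, neg_one_mul, neg_neg, one_pow]
  linear_combination ((quadraticChar k ((-1) ^ (d * (d - 1) / 2)) : ℂ) *
    gaussSum (chiC k) (addC k) ^ d) * hs

/-- **The Gauss sum of a squarefree polynomial.** -/
theorem polyGauss_eq (hk : ringChar k ≠ 2) {D : k[X]} (hD : D.Monic) (hsq : Squarefree D) :
    polyGauss D =
      chiC k ((-1) ^ (D.natDegree * (D.natDegree - 1) / 2)) * baseGauss k ^ D.natDegree := by
  induction hn : D.natDegree using Nat.strong_induction_on generalizing D with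
  | _ n ih =>
    rcases Nat.eq_zero_or_pos n with rfl | hpos
    · rw [hD.natDegree_eq_zero.mp hn, polyGauss_one]
      simp
    obtain ⟨P', hP', hPD'⟩ := Polynomial.exists_irreducible_of_natDegree_ne_zero (f := D) (by omega)
    have hm := monic_normalize hP'.ne_zero
    have hP : Irreducible (normalize P') := (normalize_associated P').symm.irreducible hP'
    obtain ⟨E, rfl⟩ : normalize P' ∣ D := normalize_dvd_iff.mpr hPD'
    generalize normalize P' = P at hm hP hD hsq hn
    have hE : E.Monic := hm.of_mul_monic_left hD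
    obtain ⟨hrel, -, hsE⟩ := squarefree_mul_iff.mp hsq
    have hdeg := hm.natDegree_mul hE
    have := hP.natDegree_pos
    rw [polyGauss_mul hm hE hrel.isCoprime, polyGauss_irreducible hk hm hP,
      ih E.natDegree (by omega) hE hsE rfl, ← hn, hdeg, BunyakovskyFails.triangle_add]
    simp only [pow_add, map_mul]
    ring

end FA.QuadraticRH
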