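import Fermat.Agent.QuadraticRH.Roots

/-!
# Primes with a given value of the quadratic symbol

The points of the extension of degree `n` count the irreducibles of degree dividing `n`; with Weil's
bound for the character sum, half of those of degree `n` have either value of the symbol.
-/

set_option autoImplicit false
set_option linter.style.openClassical false
set_option linter.style.haveILetI false
set_option linter.unusedSectionVars false

noncomputable section

open scoped Classical

namespace FA.QuadraticRH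

open Polynomial QuadraticLFF KurlbergRudnick HyperellipticWeil

variable {k : Type*} [Field k] [Fintype k]

variable (k) in
/-- The monic irreducibles of degree `n`. -/
def irrDeg (n : ℕ) : Finset k[X] := (monicSet k n).filter Irreducible

variable (k) in
/-- The monic irreducibles of degree dividing `n`. -/
def irrDvd (n : ℕ) : Finset k[X] := (irr k n).filter fun P => P.natDegree ∣ n

theorem irrDeg_eq {n : ℕ} :
    (irrDvd k n).filter (fun P => P.natDegree = n) = irrDeg k n := by
  ext P
  simp only [irrDvd, irrDeg, Finset.mem_filter, mem_irr, mem_monicSet]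
  constructor
  · rintro ⟨⟨⟨hm, hi, -⟩, -⟩, hd⟩
    exact ⟨⟨hm, hd⟩, hi⟩
  · rintro ⟨⟨hm, hd⟩, hi⟩
    exact ⟨⟨⟨hm, hi, hd.le⟩, hd.symm ▸ dvd_rfl⟩, hd⟩

/-- **Gauss's count.** -/
theorem sum_natDegree_irrDvd {n : ℕ} (hn : n ≠ 0) :
    ∑ P ∈ irrDvd k n, P.natDegree = Fintype.card k ^ n := by
  haveI : Fact (ringChar k).Prime := ⟨CharP.char_is_prime k _⟩
  haveI : NeZero n := ⟨hn⟩
  let K := FiniteField.Extension k (ringChar k) n
  let _ : Fintype K := Fintype.ofFinite K
  have hfin : Module.finrank k K = n := FiniteField.finrank_extension k (ringChar k) n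
  have hc : Fintype.card K = Fintype.card k ^ n := by
    rw [Fintype.card_eq_nat_card, Fintype.card_eq_nat_card, FiniteField.natCard_extension]
  have hmaps : ∀ x ∈ (Finset.univ : Finset K), minpoly k x ∈ irrDvd k n := fun x _ => by
    have hint : IsIntegral k x := Algebra.IsIntegral.isIntegral x
    have hdvd : (minpoly k x).natDegree ∣ n := by
      have h := minpoly.degree_dvd (K := k) (L := K) hint
      rwa [hfin] at h
    exact Finset.mem_filter.mpr ⟨mem_irr.mpr ⟨minpoly.monic hint, minpoly.irreducible hint,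
      Nat.le_of_dvd (Nat.pos_of_ne_zero hn) hdvd⟩, hdvd⟩
  rw [← hc, ← Finset.card_univ, Finset.card_eq_sum_card_fiberwise hmaps]
  refine Finset.sum_congr rfl fun P hP => ?_
  obtain ⟨hP', hdvd⟩ := Finset.mem_filter.mp hP
  obtain ⟨hm, hi, -⟩ := mem_irr.mp hP'
  exact (card_minpoly_fiber (K := K) hm hi (hfin.symm ▸ hdvd)).symm

theorem mul_card_irrDeg_le {n : ℕ} (hn : 1 ≤ n) :
    n * (irrDeg k n).card ≤ Fintype.card k ^ n := by
  rw [← sum_natDegree_irrDvd (by omega), ← irrDeg_eq, mul_comm, ← smul_eq_mul,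
    ← Finset.sum_const, Finset.sum_congr rfl fun P hP => (Finset.mem_filter.mp hP).2.symm]
  exact Finset.sum_le_sum_of_subset (Finset.filter_subset _ _)

theorem sum_pow_le (r : ℕ) :
    ∑ d ∈ Finset.Icc 1 r, Fintype.card k ^ d ≤ 2 * Fintype.card k ^ r := by
  induction r with
  | zero => simp
  | succ r ih =>
    rw [Finset.sum_Icc_succ_top (by omega)]
    have h2 : 2 ≤ Fintype.card k := Fintype.one_lt_card
    have h3 : 2 * Fintype.card k ^ r ≤ Fintype.card k ^ (r + 1) := by
      rw [pow_succ, mul_comm 2]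
      exact Nat.mul_le_mul_left _ h2
    omega

/-- The proper divisors contribute little. -/
theorem sum_natDegree_small_le {n : ℕ} (hn : 1 ≤ n) :
    (∑ P ∈ (irrDvd k n).filter (fun P => ¬ P.natDegree = n), P.natDegree : ℝ) ≤
      2 * Real.sqrt (Fintype.card k) ^ n := by
  have hsub : (irrDvd k n).filter (fun P => ¬ P.natDegree = n) ⊆
      (Finset.Icc 1 (n / 2)).biUnion (irrDeg k) := fun P hP => by
    obtain ⟨hP1, hne⟩ := Finset.mem_filter.mp hP
    obtain ⟨hP2, hdvd⟩ := Finset.mem_filter.mp hP1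
    obtain ⟨hm, hi, -⟩ := mem_irr.mp hP2
    obtain ⟨c, hc⟩ := hdvd
    have hc2 : 2 ≤ c := by
      by_contra h
      interval_cases c <;> omega
    have : P.natDegree * 2 ≤ P.natDegree * c := Nat.mul_le_mul_left _ hc2
    exact Finset.mem_biUnion.mpr ⟨_, Finset.mem_Icc.mpr ⟨hi.natDegree_pos, by omega⟩,
      Finset.mem_filter.mpr ⟨mem_monicSet.mpr ⟨hm, rfl⟩, hi⟩⟩
  have h1 : ∑ P ∈ (irrDvd k n).filter (fun P => ¬ P.natDegree = n), P.natDegree ≤
      2 * Fintype.card k ^ (n / 2) := by
    refine ((Finset.sum_le_sum_of_subset hsub).trans (le_of_eq (Finset.sum_biUnion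
      fun a _ b _ hne => Finset.disjoint_left.mpr fun P ha hb => hne ?_))).trans
      ((Finset.sum_le_sum fun d hd => ?_).trans (sum_pow_le _))
    · exact (mem_monicSet.mp (Finset.mem_filter.mp ha).1).2.symm.trans
        (mem_monicSet.mp (Finset.mem_filter.mp hb).1).2
    · rw [Finset.sum_congr (s₁ := irrDeg k d) rfl
          fun P hP => (mem_monicSet.mp (Finset.mem_filter.mp hP).1).2,
        Finset.sum_const, smul_eq_mul, mul_comm]
      exact mul_card_irrDeg_le (Finset.mem_Icc.mp hd).1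
  calc (∑ P ∈ (irrDvd k n).filter (fun P => ¬ P.natDegree = n), P.natDegree : ℝ)
      ≤ 2 * (Fintype.card k : ℝ) ^ (n / 2) := by exact_mod_cast h1
    _ = 2 * Real.sqrt (Fintype.card k) ^ (2 * (n / 2)) := by
        rw [pow_mul, Real.sq_sqrt (Nat.cast_nonneg _)]
    _ ≤ 2 * Real.sqrt (Fintype.card k) ^ n := mul_le_mul_of_nonneg_left
        (pow_le_pow_right₀ (Real.one_le_sqrt.mpr (Nat.one_le_cast.mpr Fintype.card_pos))
          (by omega)) two_pos.le

/-- The divisors of `D` among the irreducibles of degree `n`. -/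
theorem mul_card_dvd_le {D : k[X]} (hD : D ≠ 0) (n : ℕ) :
    n * ((irrDeg k n).filter (· ∣ D)).card ≤ D.natDegree := by
  have hmem : ∀ P ∈ (irrDeg k n).filter (· ∣ D),
      P.Monic ∧ P.natDegree = n ∧ Irreducible P ∧ P ∣ D := fun P hP => by
    obtain ⟨h, hd⟩ := Finset.mem_filter.mp hP
    obtain ⟨h', hi⟩ := Finset.mem_filter.mp h
    exact ⟨(mem_monicSet.mp h').1, (mem_monicSet.mp h').2, hi, hd⟩
  have hdvd : ∏ P ∈ (irrDeg k n).filter (· ∣ D), P ∣ D := by
    refine Finset.prod_dvd_of_isRelPrime (fun P hP Q hQ hne => ?_) fun P hP => (hmem P hP).2.2.2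
    exact (hmem P hP).2.2.1.isRelPrime_iff_not_dvd.mpr fun hd => hne
      (eq_of_monic_of_associated (hmem P hP).1 (hmem Q hQ).1
        ((hmem P hP).2.2.1.associated_of_dvd (hmem Q hQ).2.2.1 hd))
  refine le_of_eq_of_le ?_ (natDegree_le_of_dvd hdvd hD)
  rw [natDegree_prod_of_monic _ _ fun P hP => (hmem P hP).1,
    Finset.sum_congr rfl fun P hP => (hmem P hP).2.1, Finset.sum_const, smul_eq_mul, mul_comm]

/-- **Split and inert primes.** -/
theorem abs_prime_count_sub_le (hk : ringChar k ≠ 2) {D : k[X]} (hD : D.Monic)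
    (hsq : Squarefree D) (hm : 1 ≤ D.natDegree) {n : ℕ} (hn : 1 ≤ n) {e : ℤ}
    (he : e = 1 ∨ e = -1) :
    |2 * (n : ℝ) * ((irrDeg k n).filter fun P => symbol P D = e).card -
        (Fintype.card k : ℝ) ^ n| ≤
      (2 * D.natDegree + 3 : ℕ) * Real.sqrt (Fintype.card k) ^ n := by
  set R := (irrDvd k n).filter fun P => ¬ P.natDegree = n
  set T := irrDeg k n
  have hsmall := sum_natDegree_small_le (k := k) hn
  have hW := abs_powSum_le_sharp hk hD hsq hm hn
  have h1 : (powSum D n : ℝ) = (n : ℝ) * ∑ P ∈ T, (symbol P D : ℝ) +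
      ∑ P ∈ R, (P.natDegree : ℝ) * (symbol P D : ℝ) ^ (n / P.natDegree) := by
    rw [powSum, ← irrDvd, ← Finset.sum_filter_add_sum_filter_not _ (fun P => P.natDegree = n),
      irrDeg_eq]
    push_cast
    rw [Finset.mul_sum]
    refine congrArg₂ (· + ·) (Finset.sum_congr rfl fun P hP => ?_) rfl
    rw [(mem_monicSet.mp (Finset.mem_filter.mp hP).1).2, Nat.div_self (by omega), pow_one]
    rfl
  have h2 : |∑ P ∈ R, (P.natDegree : ℝ) * (symbol P D : ℝ) ^ (n / P.natDegree)| ≤
      2 * Real.sqrt (Fintype.card k) ^ n := by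
    refine (Finset.abs_sum_le_sum_abs _ _).trans ((Finset.sum_le_sum fun P _ => ?_).trans hsmall)
    rw [abs_mul, abs_pow, Nat.abs_cast]
    refine mul_le_of_le_one_right (Nat.cast_nonneg _) (pow_le_one₀ (abs_nonneg _) ?_)
    rcases (quadraticChar_isQuadratic k) (resultant P D) with h | h | h <;>
      simp [symbol, h]
  have h3 : (Fintype.card k : ℝ) ^ n =
      (n : ℝ) * T.card + ∑ P ∈ R, (P.natDegree : ℝ) := by
    rw [← Nat.cast_pow, ← sum_natDegree_irrDvd (k := k) (n := n) (by omega),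
      ← Finset.sum_filter_add_sum_filter_not _ (fun P => P.natDegree = n), irrDeg_eq,
      Finset.sum_congr (s₁ := irrDeg k n) rfl
        fun P hP => (mem_monicSet.mp (Finset.mem_filter.mp hP).1).2,
      Finset.sum_const, smul_eq_mul]
    push_cast
    ring
  have hZ : (n : ℝ) * (T.filter (· ∣ D)).card ≤ D.natDegree := by
    exact_mod_cast mul_card_dvd_le hD.ne_zero n
  have h4 : ∀ P ∈ T, 2 * (if symbol P D = e then (1 : ℝ) else 0) =
      1 + (e : ℝ) * symbol P D - (if P ∣ D then 1 else 0) := fun P hP => by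
    obtain ⟨hP', hi⟩ := Finset.mem_filter.mp hP
    have hPm := (mem_monicSet.mp hP').1
    by_cases hd : P ∣ D
    · have h0 : symbol P D = 0 := by
        rw [symbol, not_not.mp (mt (res_ne_zero_iff hPm).mp
          fun hc => hi.not_isUnit (hc.isUnit_of_dvd' dvd_rfl hd)), quadraticChar_zero]
      rw [h0, if_pos hd, if_neg (by rcases he with rfl | rfl <;> norm_num)]
      simp
    · rcases quadraticChar_dichotomy
          ((res_ne_zero_iff hPm).mpr (hi.coprime_iff_not_dvd.mpr hd)) with h | h <;>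
        rcases he with rfl | rfl <;> norm_num [symbol, h, hd]
  have h5 : 2 * ((T.filter fun P => symbol P D = e).card : ℝ) =
      T.card + (e : ℝ) * ∑ P ∈ T, (symbol P D : ℝ) - (T.filter (· ∣ D)).card := by
    rw [← Finset.sum_boole, Finset.mul_sum, Finset.sum_congr rfl h4, Finset.sum_sub_distrib,
      Finset.sum_add_distrib, Finset.sum_const, nsmul_one, ← Finset.mul_sum, Finset.sum_boole]
  have hs : 1 ≤ Real.sqrt (Fintype.card k) ^ n :=
    one_le_pow₀ (Real.one_le_sqrt.mpr (Nat.one_le_cast.mpr Fintype.card_pos))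
  have hR0 : 0 ≤ ∑ P ∈ R, (P.natDegree : ℝ) := Finset.sum_nonneg fun _ _ => Nat.cast_nonneg _
  have hm' : ((D.natDegree - 1 : ℕ) : ℝ) = D.natDegree - 1 := by rw [Nat.cast_sub hm, Nat.cast_one]
  rw [hm'] at hW
  have hDm : (D.natDegree : ℝ) ≤ D.natDegree * Real.sqrt (Fintype.card k) ^ n :=
    le_mul_of_one_le_right (Nat.cast_nonneg _) hs
  have hZ0 : (0 : ℝ) ≤ (n : ℝ) * (T.filter (· ∣ D)).card := by positivity
  rw [abs_le] at hW h2
  rw [show 2 * (n : ℝ) * ((T.filter fun P => symbol P D = e).card : ℝ) =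
    (n : ℝ) * (2 * ((T.filter fun P => symbol P D = e).card : ℝ)) by ring, h5, h3, abs_le]
  push_cast
  rcases he with rfl | rfl <;> push_cast <;> constructor <;> nlinarith

end FA.QuadraticRH
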